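import Fermat.Agent.TwoAdic.IdealCount.Forms
import Fermat.Agent.Theta.Binary

/-!
The forms of the ideal classes of `ℚ(√-N)` as `Theta.BinForm`: representation numbers, and equality
of binary Gauss sums for classes differing by a square.
-/

set_option autoImplicit false

noncomputable section

namespace Fermat.Agent.TwoAdic.IdealCount

open Module NumberField nonZeroDivisors
open Theta (BinForm)

variable {K : Type*} [Field K] [NumberField K] {N : ℕ}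

/-- Every class contains an ideal coprime to a given nonzero integer. -/
theorem exists_ideal_coprime_class (c : ClassGroup (𝓞 K)) {M : ℕ} (hM : M ≠ 0) :
    ∃ L : (Ideal (𝓞 K))⁰, ClassGroup.mk0 L = c ∧
      (L : Ideal (𝓞 K)) ⊔ Ideal.span {(M : 𝓞 K)} = ⊤ := by
  by_cases htopM : Ideal.span {(M : 𝓞 K)} = ⊤
  · obtain ⟨L, hL⟩ := ClassGroup.mk0_surjective c
    exact ⟨L, hL, by rw [htopM]; simp⟩
  obtain ⟨L0, hL0⟩ := ClassGroup.mk0_surjective c⁻¹
  have hL00 := nonZeroDivisors.coe_ne_zero L0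
  have hMK : Ideal.span {(M : 𝓞 K)} ≠ 0 := by simp [hM]
  obtain ⟨x, hx⟩ := IsDedekindDomain.exists_sup_span_eq
    (I := (L0 : Ideal (𝓞 K)) * Ideal.span {(M : 𝓞 K)}) Ideal.mul_le_left (mul_ne_zero hL00 hMK)
  obtain ⟨L, hL⟩ := Ideal.dvd_iff_le.mpr (hx ▸ le_sup_right : Ideal.span {x} ≤ (L0 : Ideal (𝓞 K)))
  have htop : L ⊔ Ideal.span {(M : 𝓞 K)} = ⊤ := by
    refine mul_left_cancel₀ hL00 ?_
    rw [Ideal.mul_sup, ← hL, Ideal.mul_top, sup_comm, hx]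
  have hL' : L ≠ 0 := by
    rintro rfl
    rw [Ideal.zero_eq_bot, bot_sup_eq] at htop
    exact htopM htop
  refine ⟨⟨L, mem_nonZeroDivisors_of_ne_zero hL'⟩, ?_, htop⟩
  rw [← inv_inv c, ← hL0, eq_inv_iff_mul_eq_one, ← map_mul]
  exact mk0_eq_one_of_eq_span (x := x) (by rw [Submonoid.coe_mul, mul_comm]; exact hL.symm)

namespace IsQuadField

variable (h : IsQuadField K N)

include h in
theorem isCoprime_absNorm {L : Ideal (𝓞 K)} {M : ℕ}
    (hL : L ⊔ Ideal.span {(M : 𝓞 K)} = ⊤) : IsCoprime (Ideal.absNorm L : ℤ) (M : ℤ) := by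
  obtain ⟨u, hu, v, hv, huv⟩ := Submodule.mem_sup.mp (hL ▸ Submodule.mem_top (x := (1 : 𝓞 K)))
  obtain ⟨w, rfl⟩ := Ideal.mem_span_singleton'.mp hv
  obtain ⟨A, B, rfl⟩ := h.exists_int_coords w
  have hu' : u = (1 - (M : ℤ) * A) • (1 : 𝓞 K) + (-((M : ℤ) * B)) • h.omega := by
    simp only [zsmul_eq_mul, mul_one] at huv ⊢
    push_cast
    linear_combination huv
  obtain ⟨k, hk⟩ := Ideal.absNorm_dvd_norm_of_mem hu
  rw [hu', h.norm_coords] at hk
  exact ⟨k, -((M : ℤ) * A ^ 2 - 2 * A - B + (M : ℤ) * A * B + h.quarter * (M : ℤ) * B ^ 2),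
    by linear_combination -1 * hk⟩

include h in
theorem exists_classBinForm (c : ClassGroup (𝓞 K)) :
    ∃ (J : (Ideal (𝓞 K))⁰) (q : BinForm) (e : (ℤ × ℤ) ≃ₗ[ℤ] (J : Ideal (𝓞 K))),
      ClassGroup.mk0 J = c⁻¹ ∧ 0 < q.a ∧ q.negDisc = (N : ℤ) ∧
        (∀ v, Algebra.norm ℤ (e v : 𝓞 K) =
          (Ideal.absNorm (J : Ideal (𝓞 K)) : ℤ) * q.eval v) ∧
        ∀ v, (e v : 𝓞 K) = 0 ↔ v = 0 := by
  obtain ⟨J, hJ⟩ := ClassGroup.mk0_surjective c⁻¹
  obtain ⟨a, b, d, e, ha, hdisc, he, hz⟩ := h.exists_idealForm J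
  refine ⟨J, ⟨a, b, d⟩, e, hJ, ha, ?_, fun v => ?_, hz⟩
  · simp only [BinForm.negDisc]
    linarith
  · rw [he]
    simp [formVal, BinForm.eval, mul_assoc]

/-- The form attached to an ideal class. -/
def classForm (c : ClassGroup (𝓞 K)) : BinForm := (h.exists_classBinForm c).choose_spec.choose

theorem classForm_spec (c : ClassGroup (𝓞 K)) :
    ∃ (J : (Ideal (𝓞 K))⁰) (e : (ℤ × ℤ) ≃ₗ[ℤ] (J : Ideal (𝓞 K))),
      ClassGroup.mk0 J = c⁻¹ ∧ 0 < (h.classForm c).a ∧ (h.classForm c).negDisc = (N : ℤ) ∧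
        (∀ v, Algebra.norm ℤ (e v : 𝓞 K) =
          (Ideal.absNorm (J : Ideal (𝓞 K)) : ℤ) * (h.classForm c).eval v) ∧
        ∀ v, (e v : 𝓞 K) = 0 ↔ v = 0 :=
  ⟨_, (h.exists_classBinForm c).choose_spec.choose_spec⟩

theorem negDisc_classForm (c : ClassGroup (𝓞 K)) : (h.classForm c).negDisc = (N : ℤ) := by
  obtain ⟨J, e, -, -, hd, -⟩ := h.classForm_spec c
  exact hd

theorem isPos_classForm (c : ClassGroup (𝓞 K)) : (h.classForm c).IsPos := by
  obtain ⟨J, e, -, ha, hd, -⟩ := h.classForm_spec c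
  refine ⟨ha, hd ▸ ?_⟩
  have := h.mod_four
  exact_mod_cast (by omega : 0 < N)

theorem count_classForm_zero (c : ClassGroup (𝓞 K)) : (h.classForm c).count 0 = 1 := by
  obtain ⟨J, e, -, -, -, he, hz⟩ := h.classForm_spec c
  rw [BinForm.count, Nat.card_eq_one_iff_unique]
  refine ⟨⟨fun v w => Subtype.ext ?_⟩, ⟨⟨0, by simp [BinForm.eval]⟩⟩⟩
  have key : ∀ u, (h.classForm c).eval u = ((0 : ℕ) : ℤ) → u = 0 := fun u hu => by
    rw [← hz u, ← Algebra.norm_eq_zero_iff (R := ℤ) (x := (e u : 𝓞 K)), he, hu]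
    simp
  rw [key _ v.2, key _ w.2]

theorem count_classForm (hN : 3 < N) (c : ClassGroup (𝓞 K)) {n : ℕ} (hn : 0 < n) :
    (h.classForm c).count n = 2 * classCount K c n := by
  obtain ⟨J, e, hJ, -, -, he, -⟩ := h.classForm_spec c
  have hj : (Ideal.absNorm (J : Ideal (𝓞 K)) : ℤ) ≠ 0 := by
    rw [Ne, Nat.cast_eq_zero, Ideal.absNorm_eq_zero_iff]
    exact nonZeroDivisors.coe_ne_zero J
  rw [← inv_inv c, ← hJ, ← h.card_norm_eq_mem hN J n hn, BinForm.count, hJ, inv_inv]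
  exact Nat.card_congr (e.toEquiv.subtypeEquiv fun v => by
    rw [LinearEquiv.coe_toEquiv, he, mul_right_inj' hj])

theorem disc_comp (q : BinForm) (m₁ m₂ m₃ m₄ k : ℤ) (q' : BinForm)
    (hq : ∀ x y : ℤ, q.eval (m₁ * x + m₂ * y, m₃ * x + m₄ * y) = k ^ 2 * q'.eval (x, y)) :
    (m₁ * m₄ - m₂ * m₃) ^ 2 * q.negDisc = k ^ 4 * q'.negDisc := by
  have h1 := hq 1 0
  have h2 := hq 0 1
  have h3 := hq 1 1
  simp only [BinForm.eval, Int.cast_id] at h1 h2 h3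
  simp only [BinForm.negDisc]
  set B := 2 * q.a * m₁ * m₂ + q.b * (m₁ * m₄ + m₂ * m₃) + 2 * q.c * m₃ * m₄
  have hB : B = k ^ 2 * q'.b := by linear_combination h3 - h1 - h2
  linear_combination 4 * (q.a * m₂ ^ 2 + q.b * (m₂ * m₄) + q.c * m₄ ^ 2) * h1 +
    4 * k ^ 2 * q'.a * h2 - (B + k ^ 2 * q'.b) * hB

/-- Classes differing by a square have forms with the same Gauss sums to every modulus. -/
theorem gaussSum₂_classForm_mul_sq (c j : ClassGroup (𝓞 K)) (M : ℕ) [NeZero M] (a : ℤ) :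
    (h.classForm (c * j ^ 2)).gaussSum₂ M a = (h.classForm c).gaussSum₂ M a := by
  obtain ⟨J, e, hJ, -, hd, he, hz⟩ := h.classForm_spec c
  obtain ⟨J', e', hJ', -, hd', he', hz'⟩ := h.classForm_spec (c * j ^ 2)
  obtain ⟨L, hL, hLM⟩ := exists_ideal_coprime_class j (NeZero.ne M)
  have hcl : ClassGroup.mk0 J = ClassGroup.mk0 (J' * L ^ 2) := by
    rw [map_mul, map_pow, hJ, hJ', hL, mul_inv_rev, mul_comm ((j ^ 2)⁻¹), inv_mul_cancel_right]
  obtain ⟨y, x, hy, hx, hxy⟩ := ClassGroup.mk0_eq_mk0_iff.mp hcl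
  rw [Submonoid.coe_mul, SubmonoidClass.coe_pow] at hxy
  have hmem : ∀ z : (J : Ideal (𝓞 K)), ∃ w : (J' : Ideal (𝓞 K)), x * (w : 𝓞 K) = y * z := by
    intro z
    have h1 : y * (z : 𝓞 K) ∈ Ideal.span {x} * ((J' : Ideal (𝓞 K)) * (L : Ideal (𝓞 K)) ^ 2) :=
      hxy ▸ Ideal.mul_mem_mul (Ideal.mem_span_singleton_self y) z.2
    obtain ⟨w, hw, hw'⟩ := Ideal.mem_span_singleton_mul.mp h1
    exact ⟨⟨w, Ideal.mul_le_left hw⟩, hw'⟩
  obtain ⟨w0, hw0⟩ := hmem (e (1, 0))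
  obtain ⟨w1, hw1⟩ := hmem (e (0, 1))
  set m₁ := (e'.symm w0).1
  set m₃ := (e'.symm w0).2
  set m₂ := (e'.symm w1).1
  set m₄ := (e'.symm w1).2
  set k : ℤ := (Ideal.absNorm (L : Ideal (𝓞 K)) : ℤ)
  have hnorm : (Algebra.norm ℤ y) * (Ideal.absNorm (J : Ideal (𝓞 K)) : ℤ) =
      Algebra.norm ℤ x * ((Ideal.absNorm (J' : Ideal (𝓞 K)) : ℤ) * k ^ 2) := by
    have h1 := congrArg (fun I : Ideal (𝓞 K) => ((Ideal.absNorm I : ℕ) : ℤ)) hxy
    simpa only [map_mul, map_pow, Ideal.absNorm_span_singleton, Nat.cast_mul, Nat.cast_pow,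
      h.natAbs_norm] using h1
  have key : ∀ u v : ℤ, (h.classForm (c * j ^ 2)).eval (m₁ * u + m₂ * v, m₃ * u + m₄ * v) =
      k ^ 2 * (h.classForm c).eval (u, v) := by
    intro u v
    have hlin : x * ((e' (m₁ * u + m₂ * v, m₃ * u + m₄ * v) : (J' : Ideal (𝓞 K))) : 𝓞 K) =
        y * ((e (u, v) : (J : Ideal (𝓞 K))) : 𝓞 K) := by
      have h1 : (m₁ * u + m₂ * v, m₃ * u + m₄ * v) = u • e'.symm w0 + v • e'.symm w1 :=
        Prod.ext (by simp [m₁, m₂, mul_comm]) (by simp [m₃, m₄, mul_comm])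
      have h2 : ((u, v) : ℤ × ℤ) = u • ((1, 0) : ℤ × ℤ) + v • ((0, 1) : ℤ × ℤ) := by simp
      rw [h1, h2, map_add, map_add, map_smul, map_smul, map_smul, map_smul,
        LinearEquiv.apply_symm_apply, LinearEquiv.apply_symm_apply]
      push_cast
      rw [mul_add, mul_add, mul_smul_comm, mul_smul_comm, mul_smul_comm, mul_smul_comm, hw0, hw1]
    have h3 := congrArg (Algebra.norm ℤ) hlin
    rw [map_mul, map_mul, he', he] at h3
    have hne : Algebra.norm ℤ x * (Ideal.absNorm (J' : Ideal (𝓞 K)) : ℤ) ≠ 0 := by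
      refine mul_ne_zero (Algebra.norm_ne_zero_iff.mpr hx) ?_
      rw [Ne, Nat.cast_eq_zero, Ideal.absNorm_eq_zero_iff]
      exact nonZeroDivisors.coe_ne_zero J'
    refine mul_left_cancel₀ hne ?_
    linear_combination h3 + (h.classForm c).eval (u, v) * hnorm
  have hk : IsCoprime k (M : ℤ) := h.isCoprime_absNorm hLM
  have hdet : IsCoprime (m₁ * m₄ - m₂ * m₃) (M : ℤ) := by
    have h4 := disc_comp _ m₁ m₂ m₃ m₄ k _ key
    rw [hd, hd'] at h4
    have hN0 : (N : ℤ) ≠ 0 := by have := h.mod_four; omega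
    have h5 : IsCoprime ((m₁ * m₄ - m₂ * m₃) ^ 2) (M : ℤ) :=
      mul_right_cancel₀ hN0 h4 ▸ hk.pow_left
    exact (IsCoprime.pow_left_iff two_pos).mp h5
  exact (BinForm.gaussSum₂_eq_of_similar M hdet hk key a).symm

end IsQuadField

end Fermat.Agent.TwoAdic.IdealCount
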