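import Mathlib

/-!
Ideal counting functions weighted by the ideal class, and their recursion at a prime, for number
fields of degree two.
-/

set_option autoImplicit false

noncomputable section

namespace Fermat.Agent.TwoAdic.IdealCount

open Module NumberField nonZeroDivisors

variable {K : Type*} [Field K] [NumberField K] {R : Type*} [CommRing R]

variable (K) in
theorem finite_setOf_norm_eq (n : ℕ) :
    {I : (Ideal (𝓞 K))⁰ | Ideal.absNorm (I : Ideal (𝓞 K)) = n}.Finite :=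
  (Ideal.finite_setOfPred_absNorm_eq n).preimage Subtype.val_injective.injOn

variable (K) in
/-- The ideals of norm `n`. -/
def idealsOfNorm (n : ℕ) : Finset (Ideal (𝓞 K))⁰ :=
  (finite_setOf_norm_eq K n).toFinset

@[simp]
theorem mem_idealsOfNorm {n : ℕ} {I : (Ideal (𝓞 K))⁰} :
    I ∈ idealsOfNorm K n ↔ Ideal.absNorm (I : Ideal (𝓞 K)) = n :=
  Set.Finite.mem_toFinset _

/-- `∑ φ [I]` over the integral ideals `I` of norm `n`. -/
def idealSum (φ : ClassGroup (𝓞 K) → R) (n : ℕ) : R :=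
  ∑ I ∈ idealsOfNorm K n, φ (ClassGroup.mk0 I)

theorem idealsOfNorm_zero : idealsOfNorm K 0 = ∅ :=
  Finset.eq_empty_of_forall_notMem fun I hI =>
    nonZeroDivisors.coe_ne_zero I (Ideal.absNorm_eq_zero_iff.mp (mem_idealsOfNorm.mp hI))

@[simp]
theorem idealSum_zero (φ : ClassGroup (𝓞 K) → R) : idealSum φ 0 = 0 := by
  simp [idealSum, idealsOfNorm_zero]

theorem idealsOfNorm_one : idealsOfNorm K 1 = {1} := by
  ext I
  rw [mem_idealsOfNorm, Ideal.absNorm_eq_one_iff, Finset.mem_singleton, ← Subtype.coe_inj,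
    Submonoid.coe_one, Ideal.one_eq_top]

@[simp]
theorem idealSum_one (φ : ClassGroup (𝓞 K) → R) : idealSum φ 1 = φ 1 := by
  simp [idealSum, idealsOfNorm_one]

theorem mk0_eq_one_of_eq_span {I : (Ideal (𝓞 K))⁰} {x : 𝓞 K}
    (h : (I : Ideal (𝓞 K)) = Ideal.span {x}) : ClassGroup.mk0 I = 1 :=
  (ClassGroup.mk0_eq_one_iff I.2).mpr ⟨⟨x, h⟩⟩

/-- The ideal generated by a positive integer. -/
def natIdeal (K : Type*) [Field K] [NumberField K] (l : ℕ) (hl : l ≠ 0) : (Ideal (𝓞 K))⁰ :=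
  ⟨Ideal.span {(l : 𝓞 K)}, mem_nonZeroDivisors_of_ne_zero fun h =>
    hl (Nat.cast_eq_zero.mp (Ideal.span_singleton_eq_bot.mp h))⟩

theorem eq_of_le_of_absNorm_eq {I J : Ideal (𝓞 K)} (hJ : Ideal.absNorm J ≠ 0) (h : J ≤ I)
    (he : Ideal.absNorm I = Ideal.absNorm J) : J = I := by
  obtain ⟨C, rfl⟩ := Ideal.dvd_iff_le.mpr h
  rw [map_mul] at he
  have hC : Ideal.absNorm C = 1 :=
    Nat.eq_of_mul_eq_mul_left (n := Ideal.absNorm I)
      (Nat.pos_of_ne_zero (fun h0 => hJ (by rw [map_mul, h0, zero_mul])))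
      (by rw [mul_one]; exact he.symm)
  rw [Ideal.absNorm_eq_one_iff.mp hC, Ideal.mul_top]

theorem absNorm_natSpan (hK : finrank ℚ K = 2) (l : ℕ) :
    Ideal.absNorm (Ideal.span {(l : 𝓞 K)}) = l ^ 2 := by
  rw [Ideal.absNorm_span_natCast, RingOfIntegers.rank, hK]

theorem span_natCast_le_of_absNorm {P : Ideal (𝓞 K)} {l : ℕ} (h : Ideal.absNorm P = l) :
    Ideal.span {(l : 𝓞 K)} ≤ P := by
  rw [Ideal.span_singleton_le_iff_mem, ← h]
  exact Ideal.absNorm_mem P

theorem mul_eq_natSpan (hK : finrank ℚ K = 2) {l : ℕ} (hl : l.Prime) {P Q : Ideal (𝓞 K)}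
    (hP : Ideal.absNorm P = l) (hQ : Ideal.absNorm Q = l) (hne : P ≠ Q) :
    P * Q = Ideal.span {(l : 𝓞 K)} := by
  have hl0 : Ideal.absNorm (Ideal.span {(l : 𝓞 K)}) ≠ 0 := by
    simp [absNorm_natSpan hK, hl.ne_zero]
  have hcop : P ⊔ Q = ⊤ := by
    by_contra hc
    refine hne ?_
    have hdvd : Ideal.absNorm (P ⊔ Q) ∣ l := hP ▸ Ideal.absNorm_dvd_absNorm_of_le le_sup_left
    rcases (Nat.dvd_prime hl).mp hdvd with h1 | h1
    · exact absurd (Ideal.absNorm_eq_one_iff.mp h1) hc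
    · exact (eq_of_le_of_absNorm_eq (by rw [hP]; exact hl.ne_zero) le_sup_left
        (h1.trans hP.symm)).trans (eq_of_le_of_absNorm_eq (by rw [hQ]; exact hl.ne_zero)
        le_sup_right (h1.trans hQ.symm)).symm
  refine (eq_of_le_of_absNorm_eq hl0 ?_ ?_).symm
  · rw [Ideal.mul_eq_inf_of_coprime hcop]
    exact le_inf (span_natCast_le_of_absNorm hP) (span_natCast_le_of_absNorm hQ)
  · rw [map_mul, hP, hQ, absNorm_natSpan hK, sq]

/-- An ideal of norm divisible by the prime `l` is divisible by a prime of norm `l` or by `l`. -/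
theorem exists_prime_norm_or_le (hK : finrank ℚ K = 2) {l n : ℕ} (hl : l.Prime)
    {I : Ideal (𝓞 K)} (hI : Ideal.absNorm I = l * n) :
    (∃ P : Ideal (𝓞 K), Ideal.absNorm P = l ∧ I ≤ P) ∨ I ≤ Ideal.span {(l : 𝓞 K)} := by
  have hlI : ¬IsUnit (Ideal.Quotient.mk I (l : 𝓞 K)) := by
    intro hu
    rw [map_natCast] at hu
    by_cases hn : n = 0
    · rw [hn, mul_zero, Ideal.absNorm_eq_zero_iff] at hI
      subst hI
      have : IsUnit ((l : 𝓞 K)) := by
        have h := hu.map (RingEquiv.quotientBot (𝓞 K))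
        rwa [map_natCast] at h
      have h2 := this.map (Algebra.norm ℤ)
      rw [← map_natCast (algebraMap ℤ (𝓞 K)), Algebra.norm_algebraMap, RingOfIntegers.rank, hK,
        isUnit_pow_iff two_ne_zero, Int.isUnit_iff_natAbs_eq, Int.natAbs_natCast] at h2
      exact hl.ne_one h2
    have hcard : Nat.card (𝓞 K ⧸ I) = l * n := by
      rw [← hI]; rfl
    have : Finite (𝓞 K ⧸ I) :=
      Nat.finite_of_card_ne_zero (by rw [hcard]; exact Nat.mul_ne_zero hl.ne_zero hn)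
    obtain ⟨x, hx⟩ := exists_prime_addOrderOf_dvd_card' (G := 𝓞 K ⧸ I) (hp := ⟨hl⟩) l
      ⟨n, hcard⟩
    have hlx : (l : 𝓞 K ⧸ I) * x = 0 := by
      rw [← nsmul_eq_mul, ← hx]
      exact addOrderOf_nsmul_eq_zero x
    rw [hu.mul_right_eq_zero] at hlx
    rw [hlx, addOrderOf_zero] at hx
    exact hl.ne_one hx.symm
  have hlt : I ⊔ Ideal.span {(l : 𝓞 K)} ≠ ⊤ := by
    intro htop
    refine hlI ?_
    obtain ⟨a, ha, b, hb, hab⟩ := Submodule.mem_sup.mp (htop ▸ Submodule.mem_top (x := (1 : 𝓞 K)))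
    obtain ⟨c, rfl⟩ := Ideal.mem_span_singleton'.mp hb
    refine IsUnit.of_mul_eq_one (Ideal.Quotient.mk I c) ?_
    rw [← map_mul, ← map_one (Ideal.Quotient.mk I), Ideal.Quotient.eq, mul_comm]
    rw [← hab, show c * (l : 𝓞 K) - (a + c * (l : 𝓞 K)) = -a by ring]
    exact neg_mem ha
  obtain ⟨P, hP, hle⟩ := Ideal.exists_le_maximal _ hlt
  have hdvd : Ideal.absNorm P ∣ l ^ 2 :=
    absNorm_natSpan hK l ▸ Ideal.absNorm_dvd_absNorm_of_le (le_sup_right.trans hle)
  obtain ⟨k, hk, hkP⟩ := (Nat.dvd_prime_pow hl).mp hdvd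
  interval_cases k
  · rw [pow_zero, Ideal.absNorm_eq_one_iff] at hkP
    exact absurd hkP hP.ne_top
  · exact Or.inl ⟨P, by simpa using hkP, le_sup_left.trans hle⟩
  · refine Or.inr ?_
    rw [eq_of_le_of_absNorm_eq (by simp [absNorm_natSpan hK, hl.ne_zero]) (le_sup_right.trans hle)
      (by rw [hkP, absNorm_natSpan hK])]
    exact le_sup_left.trans hle

theorem card_idealsOfNorm_prime_le (hK : finrank ℚ K = 2) {l : ℕ} (hl : l.Prime) :
    (idealsOfNorm K l).card ≤ 2 := by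
  by_contra hc
  obtain ⟨P, Q, R', hP, hQ, hR, hPQ, hPR, hQR⟩ := Finset.two_lt_card_iff.mp (not_le.mp hc)
  rw [mem_idealsOfNorm] at hP hQ hR
  have h1 := mul_eq_natSpan hK hl hP hQ (Subtype.coe_injective.ne hPQ)
  rw [← mul_eq_natSpan hK hl hP hR (Subtype.coe_injective.ne hPR)] at h1
  exact hQR (Subtype.ext (mul_left_cancel₀ (nonZeroDivisors.coe_ne_zero P) h1))

open scoped Classical in
/-- The number of primes of norm `l` dividing an ideal of norm `l * n`. -/
theorem card_filter_dvd (hK : finrank ℚ K = 2) {l n : ℕ} (hl : l.Prime) {I : (Ideal (𝓞 K))⁰}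
    (hI : Ideal.absNorm (I : Ideal (𝓞 K)) = l * n) :
    (((idealsOfNorm K l).filter (fun P => P ∣ I)).card : ℤ) =
      1 + if natIdeal K l hl.ne_zero ∣ I then ((idealsOfNorm K l).card : ℤ) - 1 else 0 := by
  have dvd_iff : ∀ P J : (Ideal (𝓞 K))⁰, P ∣ J ↔ (J : Ideal (𝓞 K)) ≤ P := fun P J => by
    refine ⟨fun ⟨C, hC⟩ => hC ▸ Ideal.mul_le_left, fun hle => ?_⟩
    obtain ⟨C, hC⟩ := Ideal.dvd_iff_le.mpr hle
    exact ⟨⟨C, mem_nonZeroDivisors_of_ne_zero fun h0 =>
      nonZeroDivisors.coe_ne_zero J (hC.trans (mul_eq_zero_of_right _ h0))⟩, Subtype.ext hC⟩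
  split_ifs with hlI
  · rw [Finset.filter_true_of_mem]
    · ring
    · intro P hP
      rw [dvd_iff] at hlI ⊢
      exact hlI.trans (span_natCast_le_of_absNorm (mem_idealsOfNorm.mp hP))
  · rw [add_zero, Nat.cast_eq_one, Finset.card_eq_one]
    rw [dvd_iff] at hlI
    obtain ⟨P, hP, hIP⟩ := (exists_prime_norm_or_le hK hl hI).resolve_right hlI
    refine ⟨⟨P, mem_nonZeroDivisors_of_ne_zero fun h0 => hl.ne_zero ?_⟩, ?_⟩
    · rw [← hP, h0]
      exact Ideal.absNorm_bot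
    ext Q
    rw [Finset.mem_filter, mem_idealsOfNorm, Finset.mem_singleton, dvd_iff]
    refine ⟨fun ⟨hQ, hIQ⟩ => ?_, fun h => by subst h; exact ⟨hP, hIP⟩⟩
    by_contra hne
    refine hlI ?_
    have hne' : (Q : Ideal (𝓞 K)) ≠ P := fun e => hne (Subtype.ext e)
    rw [show ((natIdeal K l hl.ne_zero : (Ideal (𝓞 K))⁰) : Ideal (𝓞 K)) =
      Ideal.span {(l : 𝓞 K)} from rfl, ← mul_eq_natSpan hK hl hQ hP hne']
    refine (le_inf hIQ hIP).trans (Ideal.mul_eq_inf_of_coprime ?_).ge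
    by_contra hc
    have hdvd : Ideal.absNorm ((Q : Ideal (𝓞 K)) ⊔ P) ∣ l :=
      hQ ▸ Ideal.absNorm_dvd_absNorm_of_le le_sup_left
    rcases (Nat.dvd_prime hl).mp hdvd with h1 | h1
    · exact hc (Ideal.absNorm_eq_one_iff.mp h1)
    · exact hne' ((eq_of_le_of_absNorm_eq (by rw [hQ]; exact hl.ne_zero) le_sup_left
        (h1.trans hQ.symm)).trans (eq_of_le_of_absNorm_eq (by rw [hP]; exact hl.ne_zero)
        le_sup_right (h1.trans hP.symm)).symm)

theorem sum_dvd_idealsOfNorm (φ : ClassGroup (𝓞 K) → R) (D : (Ideal (𝓞 K))⁰) {d m : ℕ}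
    (hD : Ideal.absNorm (D : Ideal (𝓞 K)) = d) (hd : d ≠ 0)
    [DecidablePred fun I : (Ideal (𝓞 K))⁰ => D ∣ I] :
    ∑ I ∈ (idealsOfNorm K (d * m)).filter (fun I => D ∣ I), φ (ClassGroup.mk0 I) =
      idealSum (fun c => φ (ClassGroup.mk0 D * c)) m := by
  classical
  refine (Finset.sum_bij (fun J _ => D * J) (fun J hJ => ?_) (fun J _ J' _ h => ?_)
    (fun I hI => ?_) (fun J _ => by rw [map_mul])).symm
  · simp [hD, mem_idealsOfNorm.mp hJ]
  · exact Subtype.ext (mul_left_cancel₀ (nonZeroDivisors.coe_ne_zero D)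
      (congrArg Subtype.val h))
  · rw [Finset.mem_filter, mem_idealsOfNorm] at hI
    obtain ⟨hn, J, rfl⟩ := hI
    refine ⟨J, ?_, rfl⟩
    rw [Submonoid.coe_mul, map_mul, hD] at hn
    exact mem_idealsOfNorm.mpr (Nat.eq_of_mul_eq_mul_left (Nat.pos_of_ne_zero hd) hn)

/-- The recursion of the ideal counting functions at a prime `l`: with `k` primes of norm `l`,
`a_φ(l n) + (k - 1) a_φ(n / l) = ∑_{N P = l} a_{φ ([P] ·)}(n)`. -/
theorem idealSum_prime_mul (hK : finrank ℚ K = 2) (φ : ClassGroup (𝓞 K) → R) {l : ℕ}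
    (hl : l.Prime) (n : ℕ) :
    idealSum φ (l * n) +
        (((idealsOfNorm K l).card : R) - 1) * (if l ∣ n then idealSum φ (n / l) else 0) =
      ∑ P ∈ idealsOfNorm K l, idealSum (fun c => φ (ClassGroup.mk0 P * c)) n := by
  classical
  have h1 : ∑ P ∈ idealsOfNorm K l, idealSum (fun c => φ (ClassGroup.mk0 P * c)) n =
      ∑ I ∈ idealsOfNorm K (l * n),
        (((idealsOfNorm K l).filter (fun P => P ∣ I)).card : R) * φ (ClassGroup.mk0 I) := by
    rw [Finset.sum_congr rfl fun P hP =>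
      (sum_dvd_idealsOfNorm φ P (m := n) (mem_idealsOfNorm.mp hP) hl.ne_zero).symm]
    simp only [Finset.sum_filter]
    rw [Finset.sum_comm]
    refine Finset.sum_congr rfl fun I _ => ?_
    rw [← Finset.sum_filter, Finset.sum_const, nsmul_eq_mul]
  rw [h1, Finset.sum_congr rfl fun I hI => by
    rw [show (((idealsOfNorm K l).filter (fun P => P ∣ I)).card : R) =
      ((1 + if natIdeal K l hl.ne_zero ∣ I then ((idealsOfNorm K l).card : ℤ) - 1 else 0 : ℤ) : R)
      by rw [← card_filter_dvd hK hl (mem_idealsOfNorm.mp hI)]; simp]]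
  simp only [Int.cast_add, Int.cast_one, add_mul, one_mul, Finset.sum_add_distrib]
  rw [idealSum]
  congr 1
  have hL : Ideal.absNorm ((natIdeal K l hl.ne_zero : (Ideal (𝓞 K))⁰) : Ideal (𝓞 K)) = l ^ 2 :=
    absNorm_natSpan hK l
  simp only [Int.cast_ite, Int.cast_sub, Int.cast_natCast, Int.cast_one, Int.cast_zero, ite_mul,
    zero_mul]
  rw [← Finset.sum_filter, ← Finset.mul_sum]
  congr 1
  split_ifs with hln
  · obtain ⟨m, rfl⟩ := hln
    rw [Nat.mul_div_cancel_left m hl.pos, show l * (l * m) = l ^ 2 * m by ring,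
      sum_dvd_idealsOfNorm φ _ hL (pow_ne_zero 2 hl.ne_zero),
      mk0_eq_one_of_eq_span (x := (l : 𝓞 K)) rfl]
    simp
  · refine (Finset.sum_eq_zero fun I hI => absurd ?_ hln).symm
    obtain ⟨hn, C, rfl⟩ := Finset.mem_filter.mp hI
    rw [mem_idealsOfNorm, Submonoid.coe_mul, map_mul, hL, sq, mul_assoc] at hn
    exact ⟨_, (Nat.eq_of_mul_eq_mul_left hl.pos hn).symm⟩

/-- For a character of the class group the recursion is a Hecke eigen-relation. -/
theorem idealSum_prime_mul_char (hK : finrank ℚ K = 2) (ψ : ClassGroup (𝓞 K) →* R) {l : ℕ}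
    (hl : l.Prime) (n : ℕ) :
    idealSum ψ (l * n) +
        (((idealsOfNorm K l).card : R) - 1) * (if l ∣ n then idealSum ψ (n / l) else 0) =
      idealSum ψ l * idealSum ψ n := by
  rw [idealSum_prime_mul hK (fun c => ψ c) hl n]
  simp only [map_mul, idealSum, Finset.sum_mul_sum]

end Fermat.Agent.TwoAdic.IdealCount
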