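import Fermat.Agent.TwoAdic.IdealCount.Quadratic
import Fermat.Agent.TwoAdic.IdealCount.Count

/-!
The number of primes of norm `l` of `ℚ(√-N)` is `1 + (l / N)`, for every prime `l`.
-/

set_option autoImplicit false

noncomputable section

namespace Fermat.Agent.TwoAdic.IdealCount

open Module NumberField nonZeroDivisors
open scoped NumberTheorySymbols

variable {K : Type*} [Field K] [NumberField K] {N : ℕ}

omit [NumberField K] in
theorem ringHom_surjective {l : ℕ} (f : 𝓞 K →+* ZMod l) : Function.Surjective f := fun z => by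
  obtain ⟨c, rfl⟩ := ZMod.intCast_surjective z
  exact ⟨c, map_intCast f c⟩

variable (K) in
/-- The prime of norm `l` cut out by a homomorphism to `ZMod l`. -/
def kerIdeal {l : ℕ} (hl : l.Prime) (f : 𝓞 K →+* ZMod l) :
    ↥(idealsOfNorm K l) :=
  have hk : Ideal.absNorm (RingHom.ker f) = l := by
    rw [Ideal.absNorm_apply, Submodule.cardQuot_apply]
    exact (Nat.card_congr
      (RingHom.quotientKerEquivOfSurjective (ringHom_surjective f)).toEquiv).trans (Nat.card_zmod l)
  ⟨⟨RingHom.ker f, mem_nonZeroDivisors_of_ne_zero fun h0 => hl.ne_zero (by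
    rw [← hk, h0, Submodule.zero_eq_bot, Ideal.absNorm_bot])⟩, mem_idealsOfNorm.mpr hk⟩

theorem kerIdeal_bijective {l : ℕ} (hl : l.Prime) :
    Function.Bijective (kerIdeal K hl) := by
  refine ⟨fun f g hfg => RingHom.ext fun x => ?_, fun ⟨P, hP⟩ => ?_⟩
  · have hker : RingHom.ker f = RingHom.ker g :=
      congrArg (fun P : ↥(idealsOfNorm K l) => ((P : (Ideal (𝓞 K))⁰) : Ideal (𝓞 K))) hfg
    obtain ⟨c, hc⟩ := ZMod.intCast_surjective (f x)
    have : x - (c : 𝓞 K) ∈ RingHom.ker g := by
      rw [← hker, RingHom.mem_ker, map_sub, map_intCast, hc, sub_self]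
    rw [RingHom.mem_ker, map_sub, map_intCast, sub_eq_zero] at this
    rw [this, hc]
  · have hcard : Nat.card (𝓞 K ⧸ (P : Ideal (𝓞 K))) = l := by
      rw [← mem_idealsOfNorm.mp hP, Ideal.absNorm_apply, Submodule.cardQuot_apply]
    have : Finite (𝓞 K ⧸ (P : Ideal (𝓞 K))) :=
      Nat.finite_of_card_ne_zero (by rw [hcard]; exact hl.ne_zero)
    let := Fintype.ofFinite (𝓞 K ⧸ (P : Ideal (𝓞 K)))
    let e := ZMod.ringEquivOfPrime (𝓞 K ⧸ (P : Ideal (𝓞 K))) hl
      (Fintype.card_eq_nat_card.trans hcard)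
    refine ⟨e.symm.toRingHom.comp (Ideal.Quotient.mk _), Subtype.ext (Subtype.ext ?_)⟩
    ext x
    simp [kerIdeal, RingHom.mem_ker, Ideal.Quotient.eq_zero_iff_mem]

namespace IsQuadField

variable (h : IsQuadField K N)

/-- Homomorphisms `𝓞 K → ZMod l` are roots of `x ^ 2 - x + (N + 1) / 4` modulo `l`. -/
def homEquivRoots (l : ℕ) :
    (𝓞 K →+* ZMod l) ≃ {r : ZMod l // r * r = r - (h.quarter : ZMod l)} :=
  (RingHom.equivIntAlgHom (R := 𝓞 K) (S := ZMod l)).trans
  ((h.orderEquiv.symm.arrowCongr AlgEquiv.refl).trans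
  (QuadraticAlgebra.lift.symm.trans
  (Equiv.subtypeEquivRight fun r => by
    simp [sub_eq_add_neg, add_comm])))

include h in
theorem card_roots_eq {l : ℕ} [Fact l.Prime] :
    (Nat.card {r : ZMod l // r * r = r - (h.quarter : ZMod l)} : ℤ) = 1 + J((l : ℤ) | N) := by
  have hlp : l.Prime := Fact.out
  have hN4 := h.mod_four
  have hNodd : Odd N := Nat.odd_iff.mpr (by omega)
  rcases eq_or_ne l 2 with rfl | hl2
  · rw [Nat.cast_ofNat, jacobiSym.at_two hNodd, ZMod.χ₈_nat_eq_if_mod_eight]
    have key : ∀ m : ZMod 2, (Nat.card {r : ZMod 2 // r * r = r - m} : ℤ) =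
        if m = 0 then 2 else 0 := by
      intro m
      rw [Nat.card_eq_fintype_card]
      fin_cases m <;> rfl
    rw [key, if_neg (by omega : N % 2 ≠ 0)]
    have hq : (h.quarter : ZMod 2) = 0 ↔ N % 8 = 7 := by
      rw [ZMod.intCast_zmod_eq_zero_iff_dvd]
      have := h.four_mul_quarter
      omega
    by_cases h8 : N % 8 = 7
    · rw [if_pos (hq.mpr h8), if_pos (Or.inr h8)]; rfl
    · rw [if_neg (mt hq.mp h8), if_neg (by omega)]; rfl
  · have hchar : (2 : ZMod l) ≠ 0 := by
      intro h2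
      rw [show (2 : ZMod l) = ((2 : ℕ) : ZMod l) by norm_num, ZMod.natCast_eq_zero_iff] at h2
      exact hl2 ((Nat.prime_dvd_prime_iff_eq hlp Nat.prime_two).mp h2)
    have h4 : (4 : ZMod l) * (h.quarter : ZMod l) = (N : ZMod l) + 1 := by
      exact_mod_cast congrArg (Int.cast : ℤ → ZMod l) h.four_mul_quarter
    have hb : Nat.card {r : ZMod l // r * r = r - (h.quarter : ZMod l)} =
        Nat.card {x : ZMod l // x ^ 2 = ((-(N : ℤ) : ℤ) : ZMod l)} := by
      refine Nat.card_congr
        { toFun := fun r => ⟨2 * r.1 - 1, ?_⟩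
          invFun := fun x => ⟨(x.1 + 1) / 2, ?_⟩
          left_inv := fun r => Subtype.ext ?_
          right_inv := fun x => Subtype.ext ?_ }
      · push_cast
        linear_combination 4 * r.2 - h4
      · have hx := x.2
        push_cast at hx
        field_simp
        linear_combination hx + h4
      · simp [hchar]
      · field_simp
        ring
    rw [hb, Nat.card_eq_fintype_card]
    have hc := legendreSym.card_sqrts l hl2 (-(N : ℤ))
    rw [Set.toFinset_card] at hc
    rw [show (Fintype.card {x : ZMod l // x ^ 2 = ((-(N : ℤ) : ℤ) : ZMod l)} : ℤ) =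
      legendreSym l (-(N : ℤ)) + 1 from
        (congrArg Nat.cast (Fintype.card_congr (Equiv.refl _))).trans hc, add_comm]
    congr 1
    have hlodd : Odd l := hlp.odd_of_ne_two hl2
    rw [legendreSym.at_neg hl2, jacobiSym.legendreSym.to_jacobiSym]
    rcases Nat.odd_mod_four_iff.mp (Nat.odd_iff.mp hlodd) with hl4 | hl4
    · rw [ZMod.χ₄_nat_one_mod_four hl4, one_mul,
        jacobiSym.quadratic_reciprocity_one_mod_four hl4 hNodd]
    · rw [ZMod.χ₄_nat_three_mod_four hl4,
        jacobiSym.quadratic_reciprocity_three_mod_four hl4 hN4, neg_one_mul]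

include h in
/-- There are `1 + (l / N)` primes of norm `l`. -/
theorem card_idealsOfNorm_prime {l : ℕ} (hl : l.Prime) :
    ((idealsOfNorm K l).card : ℤ) = 1 + J((l : ℤ) | N) := by
  have := Fact.mk hl
  rw [← h.card_roots_eq, ← Fintype.card_coe, ← Nat.card_eq_fintype_card,
    ← Nat.card_congr (Equiv.ofBijective _ (kerIdeal_bijective hl)),
    Nat.card_congr (h.homEquivRoots l)]

include h in
/-- The recursion `a_φ(l n) + (l / N) a_φ(n / l) = ∑_{N P = l} a_{φ ([P] ·)}(n)`. -/
theorem idealSum_recursion {R : Type*} [CommRing R] (φ : ClassGroup (𝓞 K) → R) {l : ℕ}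
    (hl : l.Prime) (n : ℕ) :
    idealSum φ (l * n) + (J((l : ℤ) | N) : R) * (if l ∣ n then idealSum φ (n / l) else 0) =
      ∑ P ∈ idealsOfNorm K l, idealSum (fun c => φ (ClassGroup.mk0 P * c)) n := by
  rw [← idealSum_prime_mul h.finrank_eq φ hl n]
  congr 2
  have := congrArg (Int.cast : ℤ → R) (h.card_idealsOfNorm_prime hl)
  push_cast at this
  rw [this]
  ring

include h in
/-- The Hecke relation `a_ψ(l n) + (l / N) a_ψ(n / l) = a_ψ(l) a_ψ(n)`. -/
theorem idealSum_recursion_char {R : Type*} [CommRing R] (ψ : ClassGroup (𝓞 K) →* R) {l : ℕ}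
    (hl : l.Prime) (n : ℕ) :
    idealSum ψ (l * n) + (J((l : ℤ) | N) : R) * (if l ∣ n then idealSum ψ (n / l) else 0) =
      idealSum ψ l * idealSum ψ n := by
  rw [← idealSum_prime_mul_char h.finrank_eq ψ hl n]
  congr 2
  have := congrArg (Int.cast : ℤ → R) (h.card_idealsOfNorm_prime hl)
  push_cast at this
  rw [this]
  ring

end IsQuadField

end Fermat.Agent.TwoAdic.IdealCount
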