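import Fermat.Agent.TwoAdic.IdealCount.Bridge
import Fermat.Agent.TwoAdic.IdealCount.Roots
import Fermat.Agent.TwoAdic.Forms.Iface

/-!
The ideal data of discriminant `-N` (`N = 3 mod 8` squarefree) from the class group of `ℚ(√-N)`;
the class of a prime of norm `l` is a prime class over `l`.
-/

set_option autoImplicit false

noncomputable section

namespace Fermat.Agent.TwoAdic.IdealCount

open Module NumberField nonZeroDivisors
open scoped NumberTheorySymbols

variable {K : Type} [Field K] [NumberField K] {N : ℕ}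

theorem idealSum_indicator [DecidableEq (ClassGroup (𝓞 K))] (i : ClassGroup (𝓞 K)) (n : ℕ) :
    idealSum (fun c => if c = i then (1 : ℤ) else 0) n = (classCount K i n : ℤ) := by
  rw [idealSum, classCount_eq_card, Finset.sum_ite, Finset.sum_const_zero, add_zero,
    Finset.sum_const, nsmul_one]

namespace IsQuadField

variable (h : IsQuadField K N)

include h in
theorem jacobiSym_neg_level {l : ℕ} (hl : l.Prime) (hl2 : l ≠ 2) :
    J(-(N : ℤ) | l) = J((l : ℤ) | N) := by
  have hN4 := h.mod_four
  have hNodd : Odd N := Nat.odd_iff.mpr (by omega)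
  have hlodd := hl.odd_of_ne_two hl2
  rw [jacobiSym.neg (N : ℤ) hlodd]
  rcases Nat.odd_mod_four_iff.mp (Nat.odd_iff.mp hlodd) with hl4 | hl4
  · rw [ZMod.χ₄_nat_one_mod_four hl4, one_mul,
      jacobiSym.quadratic_reciprocity_one_mod_four hl4 hNodd]
  · rw [ZMod.χ₄_nat_three_mod_four hl4,
      jacobiSym.quadratic_reciprocity_three_mod_four hl4 hN4, neg_one_mul]

include h in
theorem classCount_recursion [DecidableEq (ClassGroup (𝓞 K))] {l : ℕ} (hl : l.Prime)
    (i : ClassGroup (𝓞 K)) (n : ℕ) :
    (classCount K i (n * l) : ℤ) +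
        J((l : ℤ) | N) * (if l ∣ n then (classCount K i (n / l) : ℤ) else 0) =
      ∑ P ∈ idealsOfNorm K l, (classCount K (i * (ClassGroup.mk0 P)⁻¹) n : ℤ) := by
  have h1 := h.idealSum_recursion (fun c => if c = i then (1 : ℤ) else 0) hl n
  rw [Int.cast_id] at h1
  simp only [idealSum_indicator] at h1
  rw [mul_comm l n] at h1
  rw [h1]
  refine Finset.sum_congr rfl fun P _ => ?_
  rw [← idealSum_indicator]
  congr 1
  funext c
  simp only [eq_mul_inv_iff_mul_eq, mul_comm (ClassGroup.mk0 P) c]

include h in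
theorem classCount_recursion_inert (h8 : N % 8 = 3) {l : ℕ}
    (hl : Forms.IsInertPrime N l) (i : ClassGroup (𝓞 K)) (n : ℕ) :
    classCount K i (n * l) = if l ∣ n then classCount K i (n / l) else 0 := by
  classical
  obtain ⟨hp, hl'⟩ := hl
  have hJ : J((l : ℤ) | N) = -1 := by
    rcases eq_or_ne l 2 with rfl | hl2
    · rw [Nat.cast_ofNat, jacobiSym.at_two (Nat.odd_iff.mpr (by omega)),
        ZMod.χ₈_nat_eq_if_mod_eight, if_neg (by omega), if_neg (by omega)]
    · rw [← h.jacobiSym_neg_level hp hl2]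
      exact hl'.resolve_left hl2
  have h1 := h.classCount_recursion hp i n
  have h0 : idealsOfNorm K l = ∅ := by
    have := h.card_idealsOfNorm_prime hp
    rw [hJ] at this
    exact Finset.card_eq_zero.mp (by omega)
  rw [h0, Finset.sum_empty, hJ] at h1
  split_ifs at h1 ⊢ <;> omega

include h in
theorem classCount_recursion_split {l : ℕ} (hl : l.Prime) (hl2 : l ≠ 2)
    (hJ : J(-(N : ℤ) | l) = 1) (P : (Ideal (𝓞 K))⁰)
    (hP : Ideal.absNorm (P : Ideal (𝓞 K)) = l) (i : ClassGroup (𝓞 K)) (n : ℕ) :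
    classCount K i (n * l) + (if l ∣ n then classCount K i (n / l) else 0) =
      classCount K (i * (ClassGroup.mk0 P)⁻¹) n + classCount K (i * ClassGroup.mk0 P) n := by
  classical
  rw [h.jacobiSym_neg_level hl hl2] at hJ
  have hcard : (idealsOfNorm K l).card = 2 := by
    have := h.card_idealsOfNorm_prime hl
    rw [hJ] at this
    exact_mod_cast this
  obtain ⟨A, B, hAB, hset⟩ := Finset.card_eq_two.mp hcard
  have hPm : P ∈ idealsOfNorm K l := mem_idealsOfNorm.mpr hP
  obtain ⟨Q, hPQ, hQset⟩ : ∃ Q, P ≠ Q ∧ idealsOfNorm K l = {P, Q} := by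
    rw [hset, Finset.mem_insert, Finset.mem_singleton] at hPm
    rcases hPm with rfl | rfl
    · exact ⟨B, hAB, hset⟩
    · exact ⟨A, hAB.symm, by rw [hset, Finset.pair_comm]⟩
  have hQ : Ideal.absNorm (Q : Ideal (𝓞 K)) = l := mem_idealsOfNorm.mp (by rw [hQset]; simp)
  have hcl : ClassGroup.mk0 Q = (ClassGroup.mk0 P)⁻¹ := by
    rw [eq_inv_iff_mul_eq_one, ← map_mul]
    exact mk0_eq_one_of_eq_span (x := (l : 𝓞 K)) (by
      rw [Submonoid.coe_mul, mul_comm]
      exact mul_eq_natSpan h.finrank_eq hl hP hQ (Subtype.coe_injective.ne hPQ))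
  have h1 := h.classCount_recursion hl i n
  rw [hQset, Finset.sum_pair hPQ, hcl, inv_inv, hJ, one_mul] at h1
  split_ifs at h1 ⊢ <;> exact_mod_cast h1

/-- The ideal data of `ℚ(√-N)`. -/
def idealData (h8 : N % 8 = 3) (hN : 3 < N) : Forms.IdealData N where
  G := ClassGroup (𝓞 K)
  form := h.classForm
  form_pos := h.isPos_classForm
  negDisc_form := h.negDisc_classForm
  gauss_mul_sq c _ a _ i t := h.gaussSum₂_classForm_mul_sq i t c a
  idealCount := classCount K
  count_form i _ hn := h.count_classForm hN i hn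
  idealCount_one_one := by
    classical
    simp [classCount_eq_card, idealsOfNorm_one, Finset.filter_singleton]
  idealCount_one_of_ne i hi := by
    classical
    simp [classCount_eq_card, idealsOfNorm_one, Finset.filter_singleton, Ne.symm hi]
  recursion_inert _ hl i n _ := h.classCount_recursion_inert h8 hl i n
  recursion_split l hl hl2 hJ := by
    have hpos : 0 < (idealsOfNorm K l).card := by
      have := h.card_idealsOfNorm_prime hl
      rw [← h.jacobiSym_neg_level hl hl2, hJ] at this
      omega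
    obtain ⟨P, hP⟩ := Finset.card_pos.mp hpos
    exact ⟨ClassGroup.mk0 P, fun i n _ =>
      h.classCount_recursion_split hl hl2 hJ P (mem_idealsOfNorm.mp hP) i n⟩

/-- The class of a prime of norm `l` is a prime class over the split prime `l`. -/
theorem isPrimeClass_mk0 (h8 : N % 8 = 3) (hN : 3 < N) {l : ℕ} (hl : l.Prime) (hl2 : l ≠ 2)
    (hJ : J(-(N : ℤ) | l) = 1) (P : (Ideal (𝓞 K))⁰)
    (hP : Ideal.absNorm (P : Ideal (𝓞 K)) = l) :
    (h.idealData h8 hN).IsPrimeClass l (ClassGroup.mk0 P) :=
  fun i n _ => h.classCount_recursion_split hl hl2 hJ P hP i n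

end IsQuadField

end Fermat.Agent.TwoAdic.IdealCount
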