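import Fermat.Agent.TwoAdic.IdealCount.Quadratic
import Fermat.Agent.TwoAdic.IdealCount.Count

/-!
For every ideal class of `ℚ(√-N)` a positive binary form of discriminant `-N` whose representation
numbers are twice the number of integral ideals of given norm in the class.
-/

set_option autoImplicit false

noncomputable section

namespace Fermat.Agent.TwoAdic.IdealCount

open Module NumberField nonZeroDivisors

variable {K : Type*} [Field K] [NumberField K] {N : ℕ}

/-- The value of the binary form `a x ^ 2 + b x y + d y ^ 2`. -/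
def formVal (a b d : ℤ) (v : ℤ × ℤ) : ℤ := a * v.1 ^ 2 + b * v.1 * v.2 + d * v.2 ^ 2

variable (K) in
/-- The number of integral ideals of norm `n` in the class `c`. -/
def classCount (c : ClassGroup (𝓞 K)) (n : ℕ) : ℕ :=
  Nat.card {I : (Ideal (𝓞 K))⁰ // Ideal.absNorm (I : Ideal (𝓞 K)) = n ∧ ClassGroup.mk0 I = c}

theorem classCount_eq_card [DecidableEq (ClassGroup (𝓞 K))] (c : ClassGroup (𝓞 K)) (n : ℕ) :
    classCount K c n = ((idealsOfNorm K n).filter (fun I => ClassGroup.mk0 I = c)).card := by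
  rw [classCount, ← Nat.card_eq_finsetCard]
  exact Nat.card_congr (Equiv.subtypeEquivRight fun I => by simp)

theorem classCount_zero (c : ClassGroup (𝓞 K)) : classCount K c 0 = 0 := by
  classical
  simp [classCount_eq_card, idealsOfNorm_zero]

theorem idealSum_eq_sum_classCount {R : Type*} [CommRing R] (φ : ClassGroup (𝓞 K) → R) (n : ℕ) :
    idealSum φ n = ∑ c : ClassGroup (𝓞 K), (classCount K c n : R) * φ c := by
  classical
  rw [idealSum, ← Finset.sum_fiberwise (idealsOfNorm K n) ClassGroup.mk0]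
  refine Finset.sum_congr rfl fun c _ => ?_
  rw [classCount_eq_card, ← nsmul_eq_mul, ← Finset.sum_const]
  exact Finset.sum_congr rfl fun I hI => by rw [(Finset.mem_filter.mp hI).2]

namespace IsQuadField

variable (h : IsQuadField K N)

/-- The polar form of the norm in integral coordinates. -/
def normPolar (A B C D : ℤ) : ℤ := 2 * A * C + A * D + B * C + 2 * h.quarter * B * D

theorem disc_normPolar (A B C D : ℤ) :
    h.normPolar A B C D ^ 2 - 4 * (A ^ 2 + A * B + h.quarter * B ^ 2) *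
      (C ^ 2 + C * D + h.quarter * D ^ 2) = -(N : ℤ) * (A * D - B * C) ^ 2 := by
  rw [normPolar]
  linear_combination -(A * D - B * C) ^ 2 * h.four_mul_quarter

include h in
/-- A positive form of discriminant `-N` describing the norm on an ideal. -/
theorem exists_idealForm (J : (Ideal (𝓞 K))⁰) :
    ∃ (a b d : ℤ) (e : (ℤ × ℤ) ≃ₗ[ℤ] (J : Ideal (𝓞 K))), 0 < a ∧ b ^ 2 - 4 * a * d = -(N : ℤ) ∧
      (∀ v, Algebra.norm ℤ (e v : 𝓞 K) =
        (Ideal.absNorm (J : Ideal (𝓞 K)) : ℤ) * formVal a b d v) ∧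
      ∀ v, (e v : 𝓞 K) = 0 ↔ v = 0 := by
  have hJ0 := nonZeroDivisors.coe_ne_zero J
  let bJ : Basis (Fin 2) ℤ (J : Ideal (𝓞 K)) := Ideal.selfBasis h.intBasis (J : Ideal (𝓞 K)) hJ0
  obtain ⟨A, B, hAB⟩ := h.exists_int_coords (bJ 0 : 𝓞 K)
  obtain ⟨C, D, hCD⟩ := h.exists_int_coords (bJ 1 : 𝓞 K)
  set j : ℤ := (Ideal.absNorm (J : Ideal (𝓞 K)) : ℤ) with hj
  have hj0 : j ≠ 0 := by
    rw [hj, Ne, Nat.cast_eq_zero, Ideal.absNorm_eq_zero_iff]
    exact hJ0
  have hdet : (A * D - B * C) ^ 2 = j ^ 2 := by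
    have h1 := Ideal.natAbs_det_basis_change h.intBasis (J : Ideal (𝓞 K)) bJ
    rw [Basis.det_apply, Matrix.det_fin_two] at h1
    simp only [Basis.toMatrix_apply, Function.comp_apply, hAB, hCD, h.intBasis_repr,
      Matrix.cons_val_zero, Matrix.cons_val_one] at h1
    rw [hj, ← h1, Int.natCast_natAbs, sq_abs]
    ring
  have hcomb : ∀ u v : ℤ, Algebra.norm ℤ ((u • bJ 0 + v • bJ 1 : (J : Ideal (𝓞 K))) : 𝓞 K) =
      u ^ 2 * (A ^ 2 + A * B + h.quarter * B ^ 2) + u * v * h.normPolar A B C D +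
        v ^ 2 * (C ^ 2 + C * D + h.quarter * D ^ 2) := by
    intro u v
    have : ((u • bJ 0 + v • bJ 1 : (J : Ideal (𝓞 K))) : 𝓞 K) =
        (u * A + v * C) • (1 : 𝓞 K) + (u * B + v * D) • h.omega := by
      push_cast
      rw [hAB, hCD]
      module
    rw [this, h.norm_coords, normPolar]
    ring
  have hdvd : ∀ u v : ℤ, j ∣ Algebra.norm ℤ ((u • bJ 0 + v • bJ 1 : (J : Ideal (𝓞 K))) : 𝓞 K) :=
    fun u v => Ideal.absNorm_dvd_norm_of_mem (Subtype.coe_prop _)
  obtain ⟨a, ha⟩ : j ∣ A ^ 2 + A * B + h.quarter * B ^ 2 := by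
    have h1 := hdvd 1 0
    rw [hcomb] at h1
    simpa using h1
  obtain ⟨d, hd⟩ : j ∣ C ^ 2 + C * D + h.quarter * D ^ 2 := by
    have h1 := hdvd 0 1
    rw [hcomb] at h1
    simpa using h1
  obtain ⟨b, hb⟩ : j ∣ h.normPolar A B C D := by
    have h1 := hdvd 1 1
    rw [hcomb, ha, hd] at h1
    simp only [one_pow, one_mul] at h1
    rw [dvd_add_left (dvd_mul_right _ _), dvd_add_right (dvd_mul_right _ _)] at h1
    exact h1
  let e : (ℤ × ℤ) ≃ₗ[ℤ] (J : Ideal (𝓞 K)) :=
    (LinearEquiv.finTwoArrow ℤ ℤ).symm.trans bJ.equivFun.symm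
  have he : ∀ v : ℤ × ℤ, (e v : 𝓞 K) = ((v.1 • bJ 0 + v.2 • bJ 1 : (J : Ideal (𝓞 K))) : 𝓞 K) := by
    intro v
    simp [e, Basis.equivFun_symm_apply, Fin.sum_univ_two]
  have hz : ∀ v, (e v : 𝓞 K) = 0 ↔ v = 0 := by
    intro v
    rw [ZeroMemClass.coe_eq_zero, e.map_eq_zero_iff]
  refine ⟨a, b, d, e, ?_, ?_, fun v => ?_, hz⟩
  · have h1 : 0 < Algebra.norm ℤ (e (1, 0) : 𝓞 K) := h.norm_pos (by simp [hz])
    rw [he, hcomb, ha] at h1
    have hjp : 0 < j := lt_of_le_of_ne (Int.natCast_nonneg _) hj0.symm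
    exact (mul_pos_iff_of_pos_left hjp).mp (by simpa using h1)
  · have h1 := h.disc_normPolar A B C D
    rw [ha, hb, hd, hdet] at h1
    refine mul_left_cancel₀ (pow_ne_zero 2 hj0) ?_
    linear_combination h1
  · rw [he, hcomb, ha, hb, hd, formVal]
    ring

include h in
theorem card_norm_eq_mem (hN : 3 < N) (J : (Ideal (𝓞 K))⁰) (n : ℕ) (hn : 0 < n) :
    Nat.card {x : (J : Ideal (𝓞 K)) //
        Algebra.norm ℤ (x : 𝓞 K) = (Ideal.absNorm (J : Ideal (𝓞 K)) : ℤ) * n} =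
      2 * classCount K (ClassGroup.mk0 J)⁻¹ n := by
  classical
  let S := {I : (Ideal (𝓞 K))⁰ //
    Ideal.absNorm (I : Ideal (𝓞 K)) = n ∧ ClassGroup.mk0 I = (ClassGroup.mk0 J)⁻¹}
  have hgen : ∀ I : S, ∃ g : 𝓞 K,
      ((I.1 : (Ideal (𝓞 K))⁰) : Ideal (𝓞 K)) * (J : Ideal (𝓞 K)) = Ideal.span {g} := fun I => by
    have h1 : ClassGroup.mk0 (I.1 * J) = 1 := by rw [map_mul, I.2.2, inv_mul_cancel]
    obtain ⟨g, hg⟩ := ((ClassGroup.mk0_eq_one_iff (I.1 * J).2).mp h1).principal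
    exact ⟨g, hg⟩
  choose g hg using hgen
  have hg0 : ∀ I, g I ≠ 0 := fun I h0 => by
    refine nonZeroDivisors.coe_ne_zero (I.1 * J) ?_
    rw [Submonoid.coe_mul, hg, h0]
    simp
  have hgJ : ∀ I, g I ∈ (J : Ideal (𝓞 K)) := fun I =>
    (Ideal.span_singleton_le_iff_mem _).mp (hg I ▸ Ideal.mul_le_right)
  have hgn : ∀ I, Algebra.norm ℤ (g I) = (Ideal.absNorm (J : Ideal (𝓞 K)) : ℤ) * n := fun I => by
    rw [← h.natAbs_norm, ← Ideal.absNorm_span_singleton, ← hg, map_mul, I.2.1]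
    push_cast
    ring
  let sgn : Bool → (𝓞 K)ˣ := fun s => if s then 1 else -1
  have hnsgn : ∀ s x, Algebra.norm ℤ (x * (sgn s : 𝓞 K)) = Algebra.norm ℤ x := by
    intro s x
    rcases Bool.eq_false_or_eq_true s with rfl | rfl
    · simp [sgn]
    · have h1 : Algebra.norm ℤ (((-1 : ℤ)) : 𝓞 K) = 1 := by
        rw [← eq_intCast (algebraMap ℤ (𝓞 K)) (-1), Algebra.norm_algebraMap, RingOfIntegers.rank,
          h.finrank_eq]
        norm_num
      push_cast at h1
      simp only [sgn, Bool.false_eq_true, if_false, Units.val_neg, Units.val_one]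
      rw [map_mul, h1, mul_one]
  let F : S × Bool → {x : (J : Ideal (𝓞 K)) //
      Algebra.norm ℤ (x : 𝓞 K) = (Ideal.absNorm (J : Ideal (𝓞 K)) : ℤ) * n} := fun p =>
    ⟨⟨g p.1 * (sgn p.2 : 𝓞 K), Ideal.mul_mem_right _ _ (hgJ p.1)⟩,
      (hnsgn p.2 _).trans (hgn p.1)⟩
  have hF : Function.Bijective F := by
    constructor
    · rintro ⟨I, s⟩ ⟨I', s'⟩ hII
      have e : g I * (sgn s : 𝓞 K) = g I' * (sgn s' : 𝓞 K) :=
        congrArg (fun x => ((x.1 : (J : Ideal (𝓞 K))) : 𝓞 K)) hII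
      have hI : I = I' := by
        have h1 : Ideal.span ({g I} : Set (𝓞 K)) = Ideal.span {g I'} := by
          rw [← Ideal.span_singleton_mul_right_unit (sgn s).isUnit (g I),
            ← Ideal.span_singleton_mul_right_unit (sgn s').isUnit (g I'), e]
        rw [← hg, ← hg] at h1
        exact Subtype.ext (Subtype.ext
          (mul_right_cancel₀ (nonZeroDivisors.coe_ne_zero J) h1))
      subst hI
      have e' := mul_left_cancel₀ (hg0 I) e
      cases s <;> cases s' <;>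
        simp [sgn, Units.val_neg, neg_eq_iff_add_eq_zero, eq_neg_iff_add_eq_zero,
          one_add_one_eq_two] at e' ⊢
    · rintro ⟨⟨x, hxJ⟩, hx⟩
      have hjn : (Ideal.absNorm (J : Ideal (𝓞 K)) : ℤ) * n ≠ 0 :=
        mul_ne_zero (by
          rw [Ne, Nat.cast_eq_zero, Ideal.absNorm_eq_zero_iff]
          exact nonZeroDivisors.coe_ne_zero J)
          (by exact_mod_cast hn.ne')
      have hx0 : x ≠ 0 := fun h0 => hjn (by rw [← hx]; simp [h0])
      obtain ⟨C, hC⟩ := Ideal.dvd_iff_le.mpr ((Ideal.span_singleton_le_iff_mem _).mpr hxJ)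
      have hC0 : C ∈ (Ideal (𝓞 K))⁰ := mem_nonZeroDivisors_of_ne_zero fun h0 => hx0 (by
        rw [h0, mul_zero] at hC
        exact Ideal.span_singleton_eq_bot.mp hC)
      have hCn : Ideal.absNorm C = n := by
        have h1 := congrArg (fun I : Ideal (𝓞 K) => ((Ideal.absNorm I : ℕ) : ℤ)) hC
        simp only [Ideal.absNorm_span_singleton, map_mul, Nat.cast_mul, h.natAbs_norm] at h1
        exact_mod_cast mul_left_cancel₀ (left_ne_zero_of_mul hjn) (h1.symm.trans hx)
      have hCc : ClassGroup.mk0 ⟨C, hC0⟩ = (ClassGroup.mk0 J)⁻¹ := by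
        rw [eq_inv_iff_mul_eq_one, ← map_mul]
        exact mk0_eq_one_of_eq_span (x := x) (by rw [Submonoid.coe_mul, mul_comm]; exact hC.symm)
      have h1 := hg ⟨⟨C, hC0⟩, hCn, hCc⟩
      rw [mul_comm, ← hC, Ideal.span_singleton_eq_span_singleton] at h1
      obtain ⟨u, hu⟩ := h1.symm
      rcases h.eq_one_or_neg_one_of_isUnit hN u.isUnit with hu1 | hu1
      · exact ⟨(⟨⟨C, hC0⟩, hCn, hCc⟩, true), Subtype.ext (Subtype.ext (by
          simp only [F, sgn, if_true, Units.val_one]; rw [← hu, hu1]))⟩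
      · exact ⟨(⟨⟨C, hC0⟩, hCn, hCc⟩, false), Subtype.ext (Subtype.ext (by
          simp only [F, sgn, Bool.false_eq_true, if_false, Units.val_neg, Units.val_one]
          rw [← hu, hu1]))⟩
  rw [← Nat.card_eq_of_bijective F hF, Nat.card_prod, classCount, mul_comm]
  simp [S]

include h in
/-- Every class has a positive form of discriminant `-N` representing each `n > 0` exactly twice
as often as there are ideals of norm `n` in the class. -/
theorem exists_form (hN : 3 < N) (c : ClassGroup (𝓞 K)) :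
    ∃ a b d : ℤ, 0 < a ∧ b ^ 2 - 4 * a * d = -(N : ℤ) ∧ (∀ v, formVal a b d v = 0 ↔ v = 0) ∧
      ∀ n : ℕ, 0 < n →
        Nat.card {v : ℤ × ℤ // formVal a b d v = n} = 2 * classCount K c n := by
  obtain ⟨J, hJ⟩ := ClassGroup.mk0_surjective c⁻¹
  obtain ⟨a, b, d, e, ha, hdisc, he, hz⟩ := h.exists_idealForm J
  have hj : (Ideal.absNorm (J : Ideal (𝓞 K)) : ℤ) ≠ 0 := by
    rw [Ne, Nat.cast_eq_zero, Ideal.absNorm_eq_zero_iff]
    exact nonZeroDivisors.coe_ne_zero J
  refine ⟨a, b, d, ha, hdisc, fun v => ?_, fun n hn => ?_⟩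
  · rw [← hz v, ← Algebra.norm_eq_zero_iff (R := ℤ) (x := (e v : 𝓞 K)), he, mul_eq_zero,
      or_iff_right hj]
  · rw [← inv_inv c, ← hJ, ← h.card_norm_eq_mem hN J n hn]
    exact Nat.card_congr (e.toEquiv.subtypeEquiv fun v => by
      rw [LinearEquiv.coe_toEquiv, he, mul_right_inj' hj])

/-- A choice of the form attached to a class. -/
def formCoeffs (hN : 3 < N) (c : ClassGroup (𝓞 K)) : ℤ × ℤ × ℤ :=
  (Classical.choose (h.exists_form hN c),
    Classical.choose (Classical.choose_spec (h.exists_form hN c)),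
    Classical.choose (Classical.choose_spec (Classical.choose_spec (h.exists_form hN c))))

theorem formCoeffs_spec (hN : 3 < N) (c : ClassGroup (𝓞 K)) :
    let q := h.formCoeffs hN c
    0 < q.1 ∧ q.2.1 ^ 2 - 4 * q.1 * q.2.2 = -(N : ℤ) ∧
      (∀ v, formVal q.1 q.2.1 q.2.2 v = 0 ↔ v = 0) ∧
      ∀ n : ℕ, 0 < n →
        Nat.card {v : ℤ × ℤ // formVal q.1 q.2.1 q.2.2 v = n} = 2 * classCount K c n :=
  Classical.choose_spec (Classical.choose_spec (Classical.choose_spec (h.exists_form hN c)))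

end IsQuadField

end Fermat.Agent.TwoAdic.IdealCount
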