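import Mathlib

/-!
The ring of integers of the quadratic field of discriminant `-N` (`N = 3 mod 4` squarefree):
integral basis `1, ω`, the norm form and the unit group.
-/

set_option autoImplicit false

noncomputable section

namespace Fermat.Agent.TwoAdic.IdealCount

open Module NumberField

/-- `K` is the quadratic field `ℚ(√-N)`, for squarefree `N = 3 mod 4`. -/
structure IsQuadField (K : Type*) [Field K] [NumberField K] (N : ℕ) : Prop where
  finrank_eq : finrank ℚ K = 2
  squarefree : Squarefree N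
  mod_four : N % 4 = 3
  exists_sqrt : ∃ s : K, s ^ 2 = -(N : K)

variable {K : Type*} [Field K] [NumberField K] {N : ℕ}

namespace IsQuadField

variable (h : IsQuadField K N)

/-- `(N + 1) / 4`. -/
def quarter (_h : IsQuadField K N) : ℤ := (((N + 1) / 4 : ℕ) : ℤ)

theorem four_mul_quarter : 4 * h.quarter = (N : ℤ) + 1 := by
  have := h.mod_four
  have h4 : 4 * ((N + 1) / 4) = N + 1 := by omega
  simp only [quarter]
  exact_mod_cast h4

/-- A square root of `-N`. -/
def sqrtNeg : K := h.exists_sqrt.choose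

theorem sqrtNeg_sq : h.sqrtNeg ^ 2 = -(N : K) := h.exists_sqrt.choose_spec

theorem omega_field_mul_self :
    ((1 + h.sqrtNeg) / 2) * ((1 + h.sqrtNeg) / 2) =
      (1 + h.sqrtNeg) / 2 - (h.quarter : K) := by
  have h4 : (4 : K) * (h.quarter : K) = (N : K) + 1 := by exact_mod_cast h.four_mul_quarter
  linear_combination (1 / 4 : K) * h.sqrtNeg_sq + (1 / 4 : K) * h4

theorem isIntegral_omega_field : IsIntegral ℤ ((1 + h.sqrtNeg) / 2) := by
  refine ⟨Polynomial.X ^ 2 - Polynomial.X + Polynomial.C h.quarter, ?_, ?_⟩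
  · monicity!
  · simp only [← Polynomial.aeval_def, map_add, map_sub, map_pow, Polynomial.aeval_X,
      Polynomial.aeval_C]
    simp only [algebraMap_int_eq, eq_intCast]
    linear_combination h.omega_field_mul_self

/-- The integral generator `(1 + √-N) / 2`. -/
def omega : 𝓞 K := ⟨(1 + h.sqrtNeg) / 2, h.isIntegral_omega_field⟩

theorem coe_omega : algebraMap (𝓞 K) K h.omega = (1 + h.sqrtNeg) / 2 := rfl

theorem omega_mul_omega :
    h.omega * h.omega = (-h.quarter) • (1 : 𝓞 K) + (1 : ℤ) • h.omega := by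
  refine RingOfIntegers.ext ?_
  simp only [RingOfIntegers.coe_eq_algebraMap]
  rw [map_mul, map_add, map_zsmul, map_zsmul, map_one, h.coe_omega, h.omega_field_mul_self]
  simp [sub_eq_add_neg, add_comm]

theorem linearIndependent_sqrtNeg : LinearIndependent ℚ ![1, h.sqrtNeg] := by
  rw [LinearIndependent.pair_iff]
  intro a b hab
  rw [Rat.smul_def, Rat.smul_def, mul_one] at hab
  rcases eq_or_ne b 0 with rfl | hb
  · simpa using hab
  exfalso
  have h1 : h.sqrtNeg = ((-a / b : ℚ) : K) := by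
    have hb' : (b : K) ≠ 0 := by exact_mod_cast hb
    push_cast
    field_simp
    linear_combination hab
  have h2 : ((-a / b) ^ 2 : ℚ) = -(N : ℚ) := by
    have h3 := h.sqrtNeg_sq
    rw [h1] at h3
    exact_mod_cast h3
  have h3 : 0 < (N : ℚ) := by exact_mod_cast (show 0 < N by have := h.mod_four; omega)
  nlinarith [sq_nonneg (-a / b)]

/-- The basis `1, √-N` of `K`. -/
def fieldBasis : Basis (Fin 2) ℚ K :=
  basisOfLinearIndependentOfCardEqFinrank h.linearIndependent_sqrtNeg (by simp [h.finrank_eq])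

theorem fieldBasis_apply (i : Fin 2) : h.fieldBasis i = ![1, h.sqrtNeg] i := by
  simp [fieldBasis]

theorem fieldBasis_repr (a b : ℚ) (i : Fin 2) :
    h.fieldBasis.repr ((a : K) + (b : K) * h.sqrtNeg) i = ![a, b] i := by
  have : (a : K) + (b : K) * h.sqrtNeg = a • h.fieldBasis 0 + b • h.fieldBasis 1 := by
    simp [fieldBasis_apply, Rat.smul_def]
  rw [this, map_add, map_smul, map_smul, Basis.repr_self, Basis.repr_self]
  fin_cases i <;> simp

theorem exists_field_coords (x : K) : ∃ a b : ℚ, x = (a : K) + (b : K) * h.sqrtNeg := by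
  refine ⟨h.fieldBasis.repr x 0, h.fieldBasis.repr x 1, ?_⟩
  conv_lhs => rw [← h.fieldBasis.sum_repr x]
  simp [Fin.sum_univ_two, fieldBasis_apply, Rat.smul_def]

theorem leftMulMatrix_field (a b : ℚ) :
    Algebra.leftMulMatrix h.fieldBasis ((a : K) + (b : K) * h.sqrtNeg) =
      !![a, -((N : ℚ) * b); b, a] := by
  ext i j
  rw [Algebra.leftMulMatrix_eq_repr_mul, fieldBasis_apply]
  fin_cases j
  · simp only [Fin.zero_eta, Matrix.cons_val_zero, mul_one, h.fieldBasis_repr a b i]
    fin_cases i <;> simp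
  · have : ((a : K) + (b : K) * h.sqrtNeg) * h.sqrtNeg =
        ((-((N : ℚ) * b) : ℚ) : K) + (a : K) * h.sqrtNeg := by
      push_cast
      linear_combination (b : K) * h.sqrtNeg_sq
    simp only [Fin.mk_one, Matrix.cons_val_one, Matrix.cons_val_zero, this, h.fieldBasis_repr]
    fin_cases i <;> simp

theorem exists_int_coords (x : 𝓞 K) : ∃ A B : ℤ, x = A • (1 : 𝓞 K) + B • h.omega := by
  obtain ⟨a, b, hab⟩ := h.exists_field_coords (algebraMap (𝓞 K) K x)
  have ht := Algebra.isIntegral_trace (L := ℚ) x.isIntegral_coe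
  have hn := Algebra.isIntegral_norm ℚ x.isIntegral_coe
  rw [hab, Algebra.trace_eq_matrix_trace h.fieldBasis, h.leftMulMatrix_field] at ht
  rw [hab, Algebra.norm_eq_matrix_det h.fieldBasis, h.leftMulMatrix_field] at hn
  obtain ⟨A, hA⟩ := IsIntegrallyClosed.isIntegral_iff.mp ht
  obtain ⟨n, hn⟩ := IsIntegrallyClosed.isIntegral_iff.mp hn
  simp only [algebraMap_int_eq, eq_intCast, Matrix.trace_fin_two_of] at hA
  simp only [algebraMap_int_eq, eq_intCast, Matrix.det_fin_two_of] at hn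
  set r : ℚ := 2 * b with hr
  have hNr : (N : ℚ) * r ^ 2 = ((4 * n - A ^ 2 : ℤ) : ℚ) := by
    push_cast
    rw [hr, hn, hA]
    ring
  have hden : r.den = 1 := by
    have hr1 : r * r.den = r.num := Rat.mul_den_eq_num r
    have e : (N : ℤ) * r.num ^ 2 = (4 * n - A ^ 2) * (r.den : ℤ) ^ 2 := by
      rw [← Int.cast_inj (α := ℚ)]
      push_cast
      rw [← hr1]
      push_cast at hNr
      linear_combination (r.den : ℚ) ^ 2 * hNr
    have hd : (r.den : ℤ) ^ 2 ∣ (N : ℤ) * r.num ^ 2 := ⟨4 * n - A ^ 2, by rw [e, mul_comm]⟩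
    have hcop : IsCoprime ((r.den : ℤ) ^ 2) (r.num ^ 2) :=
      ((Rat.isCoprime_num_den r).symm).pow
    have hdN := hcop.dvd_of_dvd_mul_right hd
    exact Nat.isUnit_iff.mp (h.squarefree r.den
      (by rw [← sq]; exact_mod_cast hdN))
  obtain ⟨B, hB⟩ : ∃ B : ℤ, r = B := ⟨r.num, (Rat.coe_int_num_of_den_eq_one hden).symm⟩
  rw [hB] at hNr
  have hNB : (N : ℤ) * B ^ 2 = 4 * n - A ^ 2 := by exact_mod_cast hNr
  have heven : (2 : ℤ) ∣ A - B := by
    have : (2 : ℤ) ∣ A ^ 2 - B ^ 2 := ⟨2 * n - 2 * h.quarter * B ^ 2, by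
      linear_combination hNB + B ^ 2 * h.four_mul_quarter⟩
    rw [sq_sub_sq] at this
    rcases Int.prime_two.dvd_mul.mp this with h2 | h2 <;> omega
  obtain ⟨C, hC⟩ := heven
  refine ⟨C, B, RingOfIntegers.ext ?_⟩
  simp only [RingOfIntegers.coe_eq_algebraMap]
  rw [map_add, map_zsmul, map_zsmul, map_one, h.coe_omega, hab]
  have ha : a = (C : ℚ) + (B : ℚ) / 2 := by
    have hA' : (A : ℚ) = (B : ℚ) + 2 * C := by exact_mod_cast (by omega : A = B + 2 * C)
    linarith
  have hb : b = (B : ℚ) / 2 := by linarith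
  rw [ha, hb]
  push_cast
  simp only [zsmul_eq_mul, mul_one]
  ring

/-- The ring of integers as an explicit quadratic algebra. -/
def toOrder : QuadraticAlgebra ℤ (-h.quarter) 1 →ₐ[ℤ] 𝓞 K :=
  QuadraticAlgebra.lift ⟨h.omega, h.omega_mul_omega⟩

theorem toOrder_mk (A B : ℤ) : h.toOrder ⟨A, B⟩ = A • (1 : 𝓞 K) + B • h.omega := by
  simp [toOrder]

theorem toOrder_bijective : Function.Bijective h.toOrder := by
  refine ⟨?_, fun x => ?_⟩
  · rw [injective_iff_map_eq_zero]
    rintro ⟨A, B⟩ hAB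
    rw [toOrder_mk] at hAB
    have h1 := congrArg (algebraMap (𝓞 K) K) hAB
    rw [map_add, map_zsmul, map_zsmul, map_one, h.coe_omega, map_zero] at h1
    have h2 : ((A : ℚ) + (B : ℚ) / 2 : ℚ) • (1 : K) + ((B : ℚ) / 2) • h.sqrtNeg = 0 := by
      rw [← h1, Rat.smul_def, Rat.smul_def]
      push_cast
      simp only [zsmul_eq_mul, mul_one]
      ring
    obtain ⟨h3, h4⟩ := (LinearIndependent.pair_iff.mp h.linearIndependent_sqrtNeg) _ _ h2
    have hB0 : B = 0 := by
      have : (B : ℚ) = 0 := by linarith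
      exact_mod_cast this
    have hA0 : A = 0 := by
      have : (A : ℚ) = 0 := by linarith
      exact_mod_cast this
    subst hA0 hB0
    rfl
  · obtain ⟨A, B, rfl⟩ := h.exists_int_coords x
    exact ⟨⟨A, B⟩, h.toOrder_mk A B⟩

/-- `𝓞 K ≅ ℤ[ω]`. -/
def orderEquiv : QuadraticAlgebra ℤ (-h.quarter) 1 ≃ₐ[ℤ] 𝓞 K :=
  AlgEquiv.ofBijective h.toOrder h.toOrder_bijective

/-- The integral basis `1, ω`. -/
def intBasis : Basis (Fin 2) ℤ (𝓞 K) :=
  (QuadraticAlgebra.basis _ _).map h.orderEquiv.toLinearEquiv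

theorem intBasis_repr (A B : ℤ) (i : Fin 2) :
    h.intBasis.repr (A • (1 : 𝓞 K) + B • h.omega) i = ![A, B] i := by
  have : h.orderEquiv.toLinearEquiv.symm (A • (1 : 𝓞 K) + B • h.omega) = ⟨A, B⟩ :=
    (LinearEquiv.symm_apply_eq _).mpr (h.toOrder_mk A B).symm
  rw [intBasis, Basis.map_repr, LinearEquiv.trans_apply, this,
    QuadraticAlgebra.basis_repr_apply]

theorem intBasis_apply (i : Fin 2) : h.intBasis i = ![1, h.omega] i := by
  refine h.intBasis.repr.injective (Finsupp.ext fun j => ?_)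
  rw [Basis.repr_self]
  fin_cases i
  · rw [show (![1, h.omega] (⟨0, by norm_num⟩ : Fin 2)) = (1 : ℤ) • (1 : 𝓞 K) + (0 : ℤ) • h.omega
      by simp, h.intBasis_repr]
    fin_cases j <;> simp
  · rw [show (![1, h.omega] (⟨1, by norm_num⟩ : Fin 2)) = (0 : ℤ) • (1 : 𝓞 K) + (1 : ℤ) • h.omega
      by simp, h.intBasis_repr]
    fin_cases j <;> simp

theorem norm_coords (A B : ℤ) :
    Algebra.norm ℤ (A • (1 : 𝓞 K) + B • h.omega) = A ^ 2 + A * B + h.quarter * B ^ 2 := by
  have hm : Algebra.leftMulMatrix h.intBasis (A • (1 : 𝓞 K) + B • h.omega) =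
      !![A, -(h.quarter * B); B, A + B] := by
    ext i j
    rw [Algebra.leftMulMatrix_eq_repr_mul, intBasis_apply]
    fin_cases j
    · simp only [Fin.zero_eta, Matrix.cons_val_zero, mul_one, h.intBasis_repr]
      fin_cases i <;> simp
    · have : (A • (1 : 𝓞 K) + B • h.omega) * h.omega =
          (-(h.quarter * B)) • (1 : 𝓞 K) + (A + B) • h.omega := by
        rw [add_mul, smul_mul_assoc, one_mul, smul_mul_assoc, h.omega_mul_omega]
        module
      simp only [Fin.mk_one, Matrix.cons_val_one, Matrix.cons_val_zero, this, h.intBasis_repr]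
      fin_cases i <;> simp
  rw [Algebra.norm_eq_matrix_det h.intBasis, hm, Matrix.det_fin_two_of]
  ring

theorem four_mul_norm_coords (A B : ℤ) :
    4 * Algebra.norm ℤ (A • (1 : 𝓞 K) + B • h.omega) = (2 * A + B) ^ 2 + (N : ℤ) * B ^ 2 := by
  rw [h.norm_coords]
  linear_combination B ^ 2 * h.four_mul_quarter

include h in
theorem norm_nonneg (x : 𝓞 K) : 0 ≤ Algebra.norm ℤ x := by
  obtain ⟨A, B, rfl⟩ := h.exists_int_coords x
  nlinarith [h.four_mul_norm_coords A B, sq_nonneg (2 * A + B), sq_nonneg B]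

include h in
theorem norm_pos {x : 𝓞 K} (hx : x ≠ 0) : 0 < Algebra.norm ℤ x :=
  (h.norm_nonneg x).lt_of_ne fun e => hx (Algebra.norm_eq_zero_iff.mp e.symm)

include h in
theorem natAbs_norm (x : 𝓞 K) :
    ((Algebra.norm ℤ x).natAbs : ℤ) = Algebra.norm ℤ x :=
  Int.natAbs_of_nonneg (h.norm_nonneg x)

include h in
theorem eq_one_or_neg_one_of_isUnit (hN : 3 < N) {u : 𝓞 K} (hu : IsUnit u) : u = 1 ∨ u = -1 := by
  obtain ⟨A, B, rfl⟩ := h.exists_int_coords u
  have hn : Algebra.norm ℤ (A • (1 : 𝓞 K) + B • h.omega) = 1 := by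
    rcases Int.isUnit_iff.mp (hu.map (Algebra.norm ℤ)) with e | e
    · exact e
    · linarith [h.norm_nonneg (A • (1 : 𝓞 K) + B • h.omega)]
  have h4 := h.four_mul_norm_coords A B
  rw [hn] at h4
  have hB : B = 0 := by
    by_contra hB
    have : 1 ≤ B ^ 2 := by
      have := pow_pos (abs_pos.mpr hB) 2
      rw [sq_abs] at this
      omega
    nlinarith [sq_nonneg (2 * A + B), show (7 : ℤ) ≤ N by have := h.mod_four; omega]
  subst hB
  have hA : A ^ 2 = 1 := by linarith
  rcases sq_eq_one_iff.mp hA with rfl | rfl <;> simp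

end IsQuadField

end Fermat.Agent.TwoAdic.IdealCount
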